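import Fermat.Agent.Wp.Addition
import Fermat.Agent.EC.Torsion.Count
import Mathlib.AlgebraicGeometry.EllipticCurve.Affine.Point
import Mathlib.Analysis.Complex.Polynomial.Basic

/-!
# Uniformisation of a Weierstrass curve by `℘`

For a curve `W` over `ℂ` with `c₄ = 12 s⁴ g₂` and `c₆ = 216 s⁶ g₃`, the map
`z ↦ (s²℘(z) - b₂/12, s³℘'(z) = 2y + a₁x + a₃)` is an additive map `ℂ → W(ℂ)` with kernel
the lattice, and it hits all torsion points.
-/

noncomputable section

open Filter Topology
open scoped PeriodPair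

namespace Fermat.Agent.Wp

/-- `2y + a₁x + a₃` at an affine point, and `0` at infinity. -/
def eta {R : Type*} [CommRing R] {W : WeierstrassCurve.Affine R} : W.Point → R
  | .zero => 0
  | .some x y _ => 2 * y + W.a₁ * x + W.a₃

@[simp] theorem eta_zero {R : Type*} [CommRing R] {W : WeierstrassCurve.Affine R} :
    eta (0 : W.Point) = 0 := rfl

@[simp] theorem eta_some {R : Type*} [CommRing R] {W : WeierstrassCurve.Affine R} {x y : R}
    (h : W.Nonsingular x y) :
    eta (WeierstrassCurve.Affine.Point.some x y h) = 2 * y + W.a₁ * x + W.a₃ := rfl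

/-- A scaling `s` identifying `W` with the curve of the lattice. -/
structure Datum (W : WeierstrassCurve ℂ) (L : PeriodPair) where
  /-- The scaling. -/
  s : ℂ
  s_ne : s ≠ 0
  c₄_eq : W.c₄ = 12 * s ^ 4 * L.g₂
  c₆_eq : W.c₆ = 216 * s ^ 6 * L.g₃

namespace Datum

variable {W : WeierstrassCurve ℂ} {L : PeriodPair} (D : Datum W L)

/-- The abscissa of parameter `z`. -/
def xval (z : ℂ) : ℂ := D.s ^ 2 * ℘[L] z - W.b₂ / 12

/-- The ordinate of parameter `z`. -/
def yval (z : ℂ) : ℂ := (D.s ^ 3 * ℘'[L] z - W.a₁ * D.xval z - W.a₃) / 2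

theorem equation {z : ℂ} (hz : z ∉ L.lattice) : W.toAffine.Equation (D.xval z) (D.yval z) := by
  rw [WeierstrassCurve.Affine.equation_iff, xval, yval]
  have h := L.derivWeierstrassP_sq z hz
  have h4 := D.c₄_eq
  have h6 := D.c₆_eq
  simp only [WeierstrassCurve.c₄, WeierstrassCurve.c₆, WeierstrassCurve.b₂, WeierstrassCurve.b₄,
    WeierstrassCurve.b₆] at h4 h6
  rw [xval, WeierstrassCurve.b₂]
  linear_combination (D.s ^ 6 / 4) * h + (D.s ^ 2 * ℘[L] z / 48) * h4 + (1 / 864 : ℂ) * h6

theorem nonsingular {z : ℂ} (hz : z ∉ L.lattice) :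
    W.toAffine.Nonsingular (D.xval z) (D.yval z) := by
  rw [WeierstrassCurve.Affine.nonsingular_iff']
  refine ⟨D.equation hz, ?_⟩
  have h4 := D.c₄_eq
  simp only [WeierstrassCurve.c₄, WeierstrassCurve.b₂, WeierstrassCurve.b₄] at h4
  rcases derivWeierstrassP_ne_zero_or (L := L) hz with h | h
  · refine Or.inr ?_
    rw [yval]
    ring_nf
    simp [h, D.s_ne]
  · by_cases h' : ℘'[L] z = 0
    · refine Or.inl fun h0 => h ?_
      have hs : D.s ^ 4 ≠ 0 := pow_ne_zero _ D.s_ne
      refine mul_left_cancel₀ hs ?_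
      rw [yval, h', xval, WeierstrassCurve.b₂] at h0
      linear_combination (-2 : ℂ) * h0 + (1 / 24 : ℂ) * h4
    · refine Or.inr ?_
      rw [yval]
      ring_nf
      simp [h', D.s_ne]

open scoped Classical in
/-- The parametrisation. -/
def point (z : ℂ) : W.toAffine.Point :=
  if hz : z ∈ L.lattice then 0 else .some _ _ (D.nonsingular hz)

theorem point_of_mem {z : ℂ} (hz : z ∈ L.lattice) : D.point z = 0 := dif_pos hz

theorem point_of_notMem {z : ℂ} (hz : z ∉ L.lattice) :
    D.point z = .some _ _ (D.nonsingular hz) := dif_neg hz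

theorem point_eq_zero_iff {z : ℂ} : D.point z = 0 ↔ z ∈ L.lattice := by
  refine ⟨fun h => by_contra fun hz => ?_, D.point_of_mem⟩
  rw [D.point_of_notMem hz] at h
  exact WeierstrassCurve.Affine.Point.some_ne_zero _ h

theorem point_neg (z : ℂ) : D.point (-z) = -D.point z := by
  by_cases hz : z ∈ L.lattice
  · rw [D.point_of_mem hz, D.point_of_mem (neg_mem hz), neg_zero]
  · have hz' : -z ∉ L.lattice := fun h => hz (neg_mem_iff.mp h)
    rw [D.point_of_notMem hz, D.point_of_notMem hz', WeierstrassCurve.Affine.Point.neg_some]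
    simp only [WeierstrassCurve.Affine.Point.some.injEq, xval, yval, L.weierstrassP_neg,
      L.derivWeierstrassP_neg, WeierstrassCurve.Affine.negY, true_and]
    ring

theorem point_add_of_mem {l : ℂ} (hl : l ∈ L.lattice) (z : ℂ) : D.point (z + l) = D.point z := by
  by_cases hz : z ∈ L.lattice
  · rw [D.point_of_mem hz, D.point_of_mem (add_mem hz hl)]
  · have hz' : z + l ∉ L.lattice := fun h => hz (by simpa using sub_mem h hl)
    rw [D.point_of_notMem hz, D.point_of_notMem hz']
    simp [xval, yval, weierstrassP_add_of_mem hl, derivWeierstrassP_add_of_mem hl]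

variable [DecidableEq ℂ]

theorem point_add_of_ne {z w : ℂ} (hz : z ∉ L.lattice) (hw : w ∉ L.lattice)
    (hne : ℘[L] z ≠ ℘[L] w) : D.point (z + w) = D.point z + D.point w := by
  obtain ⟨h1, h2⟩ := weierstrassP_add hz hw hne
  have hx : D.xval z ≠ D.xval w := by
    simpa [xval, D.s_ne] using hne
  rw [D.point_of_notMem hz, D.point_of_notMem hw, D.point_of_notMem (add_notMem_of_ne hne),
    WeierstrassCurve.Affine.Point.add_of_X_ne hx]
  have hd : ℘[L] z - ℘[L] w ≠ 0 := sub_ne_zero.mpr hne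
  have hsl : W.toAffine.slope (D.xval z) (D.xval w) (D.yval z) (D.yval w)
      = (D.s * chord L w z - W.a₁) / 2 := by
    rw [WeierstrassCurve.Affine.slope_of_X_ne hx, chord]
    rw [div_eq_iff (sub_ne_zero.mpr hx)]
    simp only [xval, yval]
    field_simp
    ring
  simp only [WeierstrassCurve.Affine.Point.some.injEq]
  rw [hsl]
  have hX : D.xval (z + w)
      = W.toAffine.addX (D.xval z) (D.xval w) ((D.s * chord L w z - W.a₁) / 2) := by
    simp only [xval, h1, addFun, WeierstrassCurve.Affine.addX, WeierstrassCurve.b₂]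
    ring
  refine ⟨hX, ?_⟩
  rw [WeierstrassCurve.Affine.addY, WeierstrassCurve.Affine.negAddY, ← hX,
    WeierstrassCurve.Affine.negY]
  simp only [yval, h2, addFun', ← h1, xval]
  ring

theorem point_add (z w : ℂ) : D.point (z + w) = D.point z + D.point w := by
  by_cases hz : z ∈ L.lattice
  · rw [add_comm, D.point_add_of_mem hz, D.point_of_mem hz, zero_add]
  by_cases hw : w ∈ L.lattice
  · rw [D.point_add_of_mem hw, D.point_of_mem hw, add_zero]
  by_cases hzw : z + w ∈ L.lattice
  · have : D.point w = -D.point z := by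
      rw [← D.point_neg, show w = -z + (z + w) by ring, D.point_add_of_mem hzw]
    rw [this, add_neg_cancel, D.point_of_mem hzw]
  set S : ℂ → Set ℂ := fun c => {v : ℂ | v ∉ L.lattice ∧ ℘[L] v = c}
  have hB : ((L.lattice : Set ℂ) ∪ S (℘[L] z) ∪ S (℘[L] (z + w))
      ∪ (fun v => z + v) ⁻¹' ((L.lattice : Set ℂ) ∪ S (℘[L] w))).Countable :=
    (((countable_lattice L).union (countable_preimage_weierstrassP L _)).union
      (countable_preimage_weierstrassP L _)).union
      (((countable_lattice L).union (countable_preimage_weierstrassP L _)).preimage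
        (add_right_injective z))
  obtain ⟨v, hv⟩ := (hB.dense_compl ℂ).nonempty
  simp only [S, Set.mem_compl_iff, Set.mem_union, Set.mem_preimage, SetLike.mem_coe,
    Set.mem_ofPred_eq, not_or, not_and] at hv
  obtain ⟨⟨⟨hvL, hvz⟩, hvzw⟩, hvz', hvw⟩ := hv
  have e1 := D.point_add_of_ne hz hvL (Ne.symm (hvz hvL))
  have e2 := D.point_add_of_ne hvz' hw (hvw hvz')
  have e3 := D.point_add_of_ne hzw hvL (Ne.symm (hvzw hvL))
  rw [show z + v + w = z + w + v by ring, e3, e1, add_right_comm] at e2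
  exact add_right_cancel e2

/-- The parametrisation as a homomorphism. -/
def hom : ℂ →+ W.toAffine.Point := AddMonoidHom.mk' D.point D.point_add

theorem hom_apply (z : ℂ) : D.hom z = D.point z := rfl

theorem hom_eq_zero_iff {z : ℂ} : D.hom z = 0 ↔ z ∈ L.lattice := D.point_eq_zero_iff

theorem eta_hom (z : ℂ) : eta (D.hom z) = D.s ^ 3 * ℘'[L] z := by
  rw [hom_apply]
  by_cases hz : z ∈ L.lattice
  · rw [D.point_of_mem hz, eta_zero, L.derivWeierstrassP_coe ⟨z, hz⟩, mul_zero]
  · rw [D.point_of_notMem hz, eta_some, yval]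
    ring

theorem exists_hom_eq_of_nsmul_eq_zero [W.IsElliptic] {n : ℕ} (hn : n ≠ 0)
    {P : W.toAffine.Point} (hP : n • P = 0) : ∃ z : ℂ, (n : ℂ) * z ∈ L.lattice ∧ D.hom z = P := by
  have hnC : (n : ℂ) ≠ 0 := Nat.cast_ne_zero.mpr hn
  let f : Fin n × Fin n → {Q : W.toAffine.Point // n • Q = 0} := fun ij =>
    ⟨D.hom (((ij.1 : ℕ) * L.ω₁ + (ij.2 : ℕ) * L.ω₂) / n), by
      rw [← map_nsmul, D.hom_eq_zero_iff, nsmul_eq_mul, mul_div_cancel₀ _ hnC]
      exact PeriodPair.mem_lattice.mpr ⟨(ij.1 : ℕ), (ij.2 : ℕ), by simp⟩⟩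
  have hf : Function.Injective f := by
    rintro ⟨a, b⟩ ⟨c, d⟩ h
    have h' : D.hom (((a : ℕ) * L.ω₁ + (b : ℕ) * L.ω₂) / n)
        = D.hom (((c : ℕ) * L.ω₁ + (d : ℕ) * L.ω₂) / n) := congrArg Subtype.val h
    rw [← sub_eq_zero, ← map_sub, D.hom_eq_zero_iff] at h'
    obtain ⟨i, j, hij⟩ := PeriodPair.mem_lattice.mp h'
    have h2 := LinearIndependent.pair_iff.mp L.indep ((i * n - ((a : ℕ) : ℤ) + (c : ℕ) : ℤ) : ℝ)
      ((j * n - ((b : ℕ) : ℤ) + (d : ℕ) : ℤ) : ℝ) (by
        field_simp at hij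
        simp only [Complex.real_smul]
        push_cast
        linear_combination hij)
    norm_cast at h2
    have key : ∀ (u v : Fin n) (k : ℤ), k * n - ((u : ℕ) : ℤ) + (v : ℕ) = 0 → u = v := by
      intro u v k hk
      have hu := u.isLt
      have hv := v.isLt
      have hk0 : k = 0 := by
        by_contra hne
        rcases lt_or_gt_of_ne hne with hlt | hgt
        · have : k * n ≤ -1 * n := by gcongr; omega
          omega
        · have : 1 * (n : ℤ) ≤ k * n := by gcongr; omega
          omega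
      subst hk0
      exact Fin.ext (by omega)
    exact Prod.ext (key a c i h2.1) (key b d j h2.2)
  have hcard : Nat.card {Q : W.toAffine.Point // n • Q = 0} = n ^ 2 :=
    EC.Torsion.natCard_setOf_nsmul_eq_zero W.toAffine hnC
  have : Finite {Q : W.toAffine.Point // n • Q = 0} :=
    Nat.finite_of_card_ne_zero (by rw [hcard]; positivity)
  have hbij := (Nat.bijective_iff_injective_and_card f).mpr ⟨hf, by
    rw [hcard, Nat.card_prod, Nat.card_fin]; ring⟩
  obtain ⟨ij, hij⟩ := hbij.2 ⟨P, hP⟩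
  refine ⟨((ij.1 : ℕ) * L.ω₁ + (ij.2 : ℕ) * L.ω₂) / n, ?_, congrArg Subtype.val hij⟩
  rw [mul_div_cancel₀ _ hnC]
  exact PeriodPair.mem_lattice.mpr ⟨(ij.1 : ℕ), (ij.2 : ℕ), by simp⟩

end Datum

end Fermat.Agent.Wp
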